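/-
IHARA track, package (I-b) [TW-DEG] (helper5), part 1: **the pair of levels
`Γ_H(N) ≤ Γ_{Hm}(Nm)`**, `N = Nm q₀`, `q₀ ∤ Nm` prime, `H` the full preimage of `Hm`.

* `IhtkPair N H Nm Hm q₀`, `IhtkPair.le`, `IhtkPair.mem_of_dvd`;
* `ihtk_iota_mod`: `ι^N_r(u) mod Nm = ι^{Nm}_r(u)`;
* `IhtkPair.step`: the pair `(N r, H₁) ⊇ (Nm r, Hm₁)` of the intermediate levels of the chain;
* `IhtkPair.hypm`: the hypotheses of the composite twist at the lower level;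
* `IhtkPair.stable`, `ihtk_exists_W`: the Atkin–Lehner system `{w_{q₀}}` on `Γ_H(N)`.
-/
import Mathlib
import Fermat.Agent.Lib.Ihara.Tw.Chain
import Fermat.Agent.Lib.Ihara.Tw.WComm

set_option autoImplicit false
set_option linter.unusedSectionVars false
set_option linter.unusedVariables false
set_option linter.style.haveILetI false

namespace Fermat.Agent.Ihara

open Matrix MatrixGroups CongruenceSubgroup ModularCurve ModularCurve.Period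
open Fermat.Agent.DS Fermat.Agent.T1 Fermat.Agent.T1G Fermat.Agent.T2

/-- the pair of levels `Γ_H(N) ≤ Γ_{Hm}(Nm)`: `N = Nm q₀`, `q₀ ∤ Nm` prime, `H` the full preimage of
`Hm` (so `H` contains the whole `q₀`-component of `(ℤ/N)ˣ`) -/
structure IhtkPair (N : ℕ) (H : Subgroup (ZMod N)ˣ) (Nm : ℕ) (Hm : Subgroup (ZMod Nm)ˣ)
    (q₀ : ℕ) : Prop where
  prime : q₀.Prime
  eq : N = Nm * q₀
  ndvd : ¬ q₀ ∣ Nm
  mem_iff : ∀ (h : Nm ∣ N) (x : (ZMod N)ˣ), x ∈ H ↔ ZMod.unitsMap h x ∈ Hm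

theorem ihtk_Gamma0_le {N Nm : ℕ} (h : Nm ∣ N) : Gamma0 N ≤ Gamma0 Nm := by
  intro γ hγ
  rw [tdm_mem_Gamma0_iff] at hγ ⊢
  exact (Int.natCast_dvd_natCast.mpr h).trans hγ

section Pair

variable {N : ℕ} {H : Subgroup (ZMod N)ˣ} {Nm : ℕ} {Hm : Subgroup (ZMod Nm)ˣ} {q₀ : ℕ}

theorem IhtkPair.dvd (hP : IhtkPair N H Nm Hm q₀) : Nm ∣ N := Dvd.intro q₀ hP.eq.symm

theorem IhtkPair.dvd' (hP : IhtkPair N H Nm Hm q₀) : q₀ ∣ N := Dvd.intro_left Nm hP.eq.symm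

theorem IhtkPair.le (hP : IhtkPair N H Nm Hm q₀) : ihfGammaH N H ≤ ihfGammaH Nm Hm := by
  rintro γ ⟨h0, x, hx, e⟩
  refine ⟨ihtk_Gamma0_le hP.dvd h0, ZMod.unitsMap hP.dvd x, (hP.mem_iff hP.dvd x).mp hx, ?_⟩
  rw [ZMod.unitsMap_val, ← e, iht_dshD_cast hP.dvd]

/-- an element of `Γ_{Hm}(Nm)` with lower left entry divisible by `N` lies in `Γ_H(N)` -/
theorem IhtkPair.mem_of_dvd (hP : IhtkPair N H Nm Hm q₀) {δ : SL(2, ℤ)}
    (hδ : δ ∈ ihfGammaH Nm Hm) (h : (N : ℤ) ∣ δ 1 0) : δ ∈ ihfGammaH N H := by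
  have h0 : δ ∈ Gamma0 N := (tdm_mem_Gamma0_iff δ).mpr h
  obtain ⟨x, hx⟩ := iht_exists_unit_dshD h0
  obtain ⟨-, y, hy, e⟩ := hδ
  refine ⟨h0, x, (hP.mem_iff hP.dvd x).mpr ?_, hx.symm⟩
  have : ZMod.unitsMap hP.dvd x = y :=
    Units.ext (by rw [ZMod.unitsMap_val, hx, iht_dshD_cast hP.dvd, e])
  rw [this]
  exact hy

/-- `H` is stable under the Atkin–Lehner involution at `q₀` -/
theorem IhtkPair.stable (hP : IhtkPair N H Nm Hm q₀) : IhtwStable N Nm q₀ hP.eq H := by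
  intro x hx x' h1 _
  rw [hP.mem_iff hP.dvd] at hx ⊢
  rw [h1]
  exact hx

/-- **the Atkin–Lehner system `{w_{q₀}}` on `Γ_H(N)` exists** -/
theorem ihtk_exists_W [NeZero N] (hP : IhtkPair N H Nm Hm q₀) (a b : ℤ)
    (hab : (q₀ : ℤ) * a - (Nm : ℤ) * b = 1) :
    ∃ W : tdmCosetSys (ihfGammaH N H) Unit, W.rep () = t2wMat Nm q₀ a b :=
  ⟨ihtwSysW hP.eq a b hab hP.prime.pos hP.stable, rfl⟩

end Pair

section Iota

variable {N Nm : ℕ} [NeZero N] [NeZero Nm] {r : ℕ} [hr : Fact r.Prime]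

/-- `ι^N_r(u) mod Nm = ι^{Nm}_r(u)` for `Nm ∣ N` -/
theorem ihtk_iota_mod (hdvd : Nm ∣ N) (hrN : r ∣ N) (hr2 : ¬ r * r ∣ N) (hrNm : r ∣ Nm)
    (hr2m : ¬ r * r ∣ Nm) (u : (ZMod r)ˣ) :
    ZMod.unitsMap hdvd (ihtIota N r hrN hr2 u) = ihtIota Nm r hrNm hr2m u := by
  have hdd : Nm / r ∣ N / r := by
    obtain ⟨a, rfl⟩ := hrNm
    obtain ⟨b, rfl⟩ := hdvd
    rw [Nat.mul_div_cancel_left _ hr.out.pos, Nat.mul_assoc, Nat.mul_div_cancel_left _ hr.out.pos]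
    exact Dvd.intro b rfl
  refine iht_iota_unique Nm r hrNm hr2m ?_ ?_
  · rw [ihtc_unitsMap_unitsMap, ihtIota_mod_r, ihtIota_mod_r]
  · rw [ihtc_unitsMap_unitsMap, ihtIota_mod_div,
      ← ihtc_unitsMap_unitsMap hdd (Nat.div_dvd_of_dvd hrN), ihtIota_mod_div, map_one]

end Iota

section Step

variable {N : ℕ} [NeZero N] {H : Subgroup (ZMod N)ˣ} {Nm : ℕ} [NeZero Nm]
  {Hm : Subgroup (ZMod Nm)ˣ} {q₀ : ℕ}

/-- a prime `r ≠ q₀` dividing `N` divides `Nm` -/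
theorem IhtkPair.dvd_of_ne (hP : IhtkPair N H Nm Hm q₀) {r : ℕ} (hr : r.Prime) (hrq : r ≠ q₀)
    (hrN : r ∣ N) : r ∣ Nm := by
  rw [hP.eq] at hrN
  rcases (Nat.Prime.dvd_mul hr).mp hrN with h | h
  · exact h
  · exact absurd ((Nat.prime_dvd_prime_iff_eq hr hP.prime).mp h) hrq

theorem IhtkPair.not_sq (hP : IhtkPair N H Nm Hm q₀) {r : ℕ} (hr2 : ¬ r * r ∣ N) :
    ¬ r * r ∣ Nm := fun h => hr2 (h.trans hP.dvd)

/-- **the pair of the intermediate levels** `(N r, H₁) ⊇ (Nm r, Hm₁)` -/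
theorem IhtkPair.step (hP : IhtkPair N H Nm Hm q₀) {r : ℕ} [hr : Fact r.Prime] (hrq : r ≠ q₀)
    (hrN : r ∣ N) (hr2 : ¬ r * r ∣ N) (hrNm : r ∣ Nm) (hr2m : ¬ r * r ∣ Nm) :
    IhtkPair (N * r) (ihtcH₁ N r hrN hr2 H) (Nm * r) (ihtcH₁ Nm r hrNm hr2m Hm) q₀ where
  prime := hP.prime
  eq := by rw [hP.eq]; ring
  ndvd := by
    intro h
    rcases (Nat.Prime.dvd_mul hP.prime).mp h with h | h
    · exact hP.ndvd h
    · exact hrq ((Nat.prime_dvd_prime_iff_eq hP.prime hr.out).mp h).symm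
  mem_iff := by
    intro h x
    rw [ihtc_mem_H₁, ihtc_mem_H₁, hP.mem_iff hP.dvd, map_mul, map_inv,
      ihtk_iota_mod hP.dvd hrN hr2 hrNm hr2m, ihtc_unitsMap_unitsMap, ihtc_unitsMap_unitsMap,
      ihtc_unitsMap_unitsMap]

end Step

section Hypm

variable {N : ℕ} [NeZero N] {H : Subgroup (ZMod N)ˣ} {Nm : ℕ} [NeZero Nm]
  {Hm : Subgroup (ZMod Nm)ˣ} {q₀ : ℕ}

/-- **the hypotheses of the composite twist at the lower level** -/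
theorem IhtkPair.hypm (hP : IhtkPair N H Nm Hm q₀) {Rl : List ℕ} {k : ℕ → ℕ}
    (hyp : IhtcHyp N H Rl k) (hq₀ : q₀ ∉ Rl) : IhtcHyp Nm Hm Rl k where
  nodup := hyp.nodup
  prime := hyp.prime
  dvd r hr := hP.dvd_of_ne (hyp.prime r hr) (fun h => hq₀ (h ▸ hr)) (hyp.dvd r hr)
  not_sq r hr := hP.not_sq (hyp.not_sq r hr)
  supp x hx := by
    obtain ⟨x', rfl⟩ := ZMod.unitsMap_surjective hP.dvd x
    rw [← hP.mem_iff hP.dvd]
    refine hyp.supp x' fun r hr h => ?_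
    have hrNm : r ∣ Nm := hP.dvd_of_ne (hyp.prime r hr) (fun h => hq₀ (h ▸ hr)) (hyp.dvd r hr)
    have := hx r hr hrNm
    rwa [ihtc_unitsMap_unitsMap] at this
  sqrt r hr u := by
    haveI : Fact r.Prime := ⟨hyp.prime r hr⟩
    have hrN := hyp.dvd r hr
    have hr2 := hyp.not_sq r hr
    have hrNm : r ∣ Nm := hP.dvd_of_ne (hyp.prime r hr) (fun h => hq₀ (h ▸ hr)) hrN
    have hr2m : ¬ r * r ∣ Nm := hP.not_sq hr2
    have h1 := hyp.sqrt r hr u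
    rw [ihtcIota_eq N r hrN hr2, hP.mem_iff hP.dvd, map_mul, map_inv, map_pow,
      ihtk_iota_mod hP.dvd hrN hr2 hrNm hr2m] at h1
    rw [ihtcIota_eq Nm r hrNm hr2m]
    exact h1

end Hypm

end Fermat.Agent.Ihara
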