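/-
IHARA track, package (I-b) [TW-DEG] (helper5), bridge to helper9's (A) [GRP]: the pair of levels
`IhtkPair M H′ Nm H⁻ q₀` for `H′ = ker κ_M`, `H⁻ = ker κ_{Nm}` of the SAME family of primes `q i ≠ q₀`
at the levels `M = Nm q₀` and `Nm`.
-/
import Mathlib
import Fermat.Agent.Lib.Ihara.Tk.Pair
import Fermat.Agent.Lib.Ihara.Grp.Kappa

set_option autoImplicit false
set_option linter.unusedSectionVars false
set_option linter.unusedVariables false

namespace Fermat.Agent.Ihara

variable {ι : Type*} {M Nm q₀ : ℕ} {q m : ι → ℕ}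

/-- the family `q` (avoiding `q₀`) also lives at the level `Nm = M / q₀` -/
theorem ihtk_data_descend (h : IhqData M q m) (hq₀ : q₀.Prime) (heq : M = Nm * q₀)
    (hne : ∀ i, q i ≠ q₀) : IhqData Nm q m where
  prime := h.prime
  inj := h.inj
  mdvd := h.mdvd
  dvd i := by
    have h1 := h.dvd i
    rw [heq] at h1
    rcases (Nat.Prime.dvd_mul (h.prime i)).mp h1 with h2 | h2
    · exact h2
    · exact absurd ((Nat.prime_dvd_prime_iff_eq (h.prime i) hq₀).mp h2) (hne i)

/-- **the pair of levels from helper9's `IhqData`**: `ker κ_M` is the full preimage of `ker κ_{Nm}` -/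
theorem ihtk_pair_of_data (h : IhqData M q m) (hm : IhqData Nm q m) (hq₀ : q₀.Prime)
    (heq : M = Nm * q₀) (hnd : ¬ q₀ ∣ Nm) :
    IhtkPair M (ihqKappa h).ker Nm (ihqKappa hm).ker q₀ where
  prime := hq₀
  eq := heq
  ndvd := hnd
  mem_iff := fun hd x => by
    rw [ihq_mem_ker_iff, ihq_mem_ker_iff]
    refine forall_congr' fun i => ?_
    rw [ihtc_unitsMap_unitsMap]

end Fermat.Agent.Ihara
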