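/-
IHARA track, package (I-b) [TW-DEG] (helper5), part 2: **the one-prime twist commutes with the
transfer** `Γ_H(N) → Γ_{Hm}(Nm)` (`N = Nm q₀`, `r ≠ q₀`):

  `cor_{K' → G'} ∘ Tw_r^{(N, H)} = Tw_r^{(Nm, Hm)} ∘ cor_{K → G}`     (`ihtk_cor_tw_hom`, `ihtk_cor_tw`)

for ANY transversal-type systems `C` of `K = Γ_H(N)` in `G = Γ_{Hm}(Nm)` and `C'` of the target `K'` of
the upper twist in the target `G'` of the lower twist, provided every `δ ∈ G'` with `N ∣ δ₁₀` lies in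
`K'`.  Proof: both sides are local operators (helper8's `IhtLoc`); the representatives
`β^K_u ρ'_j` of the left side lie in `K ρ_i β^G_{u'}` (existence), distinct `(u, j)` give distinct
`K`-cosets (the entry `δ₁₀` of `δ = ρ'_j ρ'_{j₂}⁻¹` is divisible by `N`), and the index sets have the
same cardinality.
-/
import Mathlib
import Fermat.Agent.Lib.Ihara.Tk.Pair
import Fermat.Agent.Lib.Ihara.Tw.SysGen

set_option autoImplicit false
set_option linter.unusedSectionVars false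
set_option linter.unusedVariables false
set_option linter.style.haveILetI false

namespace Fermat.Agent.Ihara

open Matrix MatrixGroups CongruenceSubgroup ModularCurve ModularCurve.Period
open Fermat.Agent.DS Fermat.Agent.T1 Fermat.Agent.T1G Fermat.Agent.T2

section L1

variable {N : ℕ} [NeZero N] {H : Subgroup (ZMod N)ˣ} {Nm : ℕ} [NeZero Nm]
  {Hm : Subgroup (ZMod Nm)ˣ} {q₀ : ℕ} (hP : IhtkPair N H Nm Hm q₀)
  {r : ℕ} [hr : Fact r.Prime] {k : ℕ} {K' G' : Subgroup SL(2, ℤ)}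
  (hyp : IhtHyp N r H k K') (hypm : IhtHyp Nm r Hm k G')

include hP

/-- `y(u) mod Nm = ym(u)` -/
theorem ihtk_Y_mod (u : (ZMod r)ˣ) : ZMod.unitsMap hP.dvd (ihtY hyp u) = ihtY hypm u := by
  rw [ihtY_apply, ihtY_apply, map_pow,
    ihtk_iota_mod hP.dvd hyp.dvd hyp.not_sq hypm.dvd hypm.not_sq]

/-- `g_u = γ^N_{y(u)} (γ^{Nm}_{ym(u)})⁻¹ ∈ Γ_{Hm}(Nm)` -/
theorem ihtk_gu_mem (u : (ZMod r)ˣ) :
    dshGammaU N (ihtY hyp u) * (dshGammaU Nm (ihtY hypm u))⁻¹ ∈ ihfGammaH Nm Hm := by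
  refine iht_mul_inv_mem_GammaH (ihtk_Gamma0_le hP.dvd (dshGammaU_mem N _)) (dshGammaU_mem Nm _) ?_
  rw [dshD_dshGammaU, ← iht_dshD_cast hP.dvd, dshD_dshGammaU, ← ihtk_Y_mod hP hyp hypm,
    ZMod.unitsMap_val]

/-- `β^K_u = g_u β^G_u` -/
theorem ihtk_rep_eq (u : (ZMod r)ˣ) :
    ihtRep hyp u
      = ((dshGammaU N (ihtY hyp u) * (dshGammaU Nm (ihtY hypm u))⁻¹ : SL(2, ℤ)) :
          Matrix (Fin 2) (Fin 2) ℤ) * ihtRep hypm u := by
  rw [ihtRep, ihtRep, Matrix.SpecialLinearGroup.coe_mul, Matrix.mul_assoc, iht_SL_inv_mul_cancel]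

omit [NeZero Nm] hP in
/-- if `β_u δ = κ β_{u₂}` with `κ ∈ Γ₀(N)` then `N ∣ δ₁₀` -/
theorem ihtk_entry (δ κ : SL(2, ℤ)) (hκ : κ ∈ Gamma0 N) (u u₂ : (ZMod r)ˣ)
    (h : ihtRep hyp u * (δ : Matrix (Fin 2) (Fin 2) ℤ)
      = (κ : Matrix (Fin 2) (Fin 2) ℤ) * ihtRep hyp u₂) : (N : ℤ) ∣ δ 1 0 := by
  set g := dshGammaU N (ihtY hyp u) with hg
  set g₂ := dshGammaU N (ihtY hyp u₂) with hg₂
  set P : SL(2, ℤ) := g⁻¹ * κ * g₂ with hPdef
  have hPm : P ∈ Gamma0 N :=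
    mul_mem (mul_mem (inv_mem (dshGammaU_mem N _)) hκ) (dshGammaU_mem N _)
  have h1 : ihtAlpha r (u : ZMod r) * (δ : Matrix (Fin 2) (Fin 2) ℤ)
      = (P : Matrix (Fin 2) (Fin 2) ℤ) * ihtAlpha r (u₂ : ZMod r) := by
    have h2 : (g : Matrix (Fin 2) (Fin 2) ℤ) * (ihtAlpha r (u : ZMod r)
          * (δ : Matrix (Fin 2) (Fin 2) ℤ))
        = (κ : Matrix (Fin 2) (Fin 2) ℤ) * ((g₂ : Matrix (Fin 2) (Fin 2) ℤ)
          * ihtAlpha r (u₂ : ZMod r)) := by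
      rw [← Matrix.mul_assoc]
      exact h
    rw [hPdef, Matrix.SpecialLinearGroup.coe_mul, Matrix.SpecialLinearGroup.coe_mul,
      Matrix.mul_assoc, Matrix.mul_assoc, ← h2, iht_SL_inv_mul_cancel]
  have hr0 : (r : ℤ) ≠ 0 := by exact_mod_cast hr.out.ne_zero
  have e10 := congrFun (congrFun h1 1) 0
  simp [ihtAlpha, Matrix.mul_apply, Fin.sum_univ_two] at e10
  have e : (δ : Matrix (Fin 2) (Fin 2) ℤ) 1 0 = (P : Matrix (Fin 2) (Fin 2) ℤ) 1 0 := by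
    exact mul_left_cancel₀ hr0 (e10.trans (mul_comm _ _))
  rw [e]
  exact (tdm_mem_Gamma0_iff P).mp hPm

variable (A : Type*) [AddCommGroup A]

/-- **the one-prime twist commutes with the transfer**, on `Hom` -/
theorem ihtk_cor_tw_hom [NoZeroSMulDivisors ℕ A]
    (hq' : ∀ δ : SL(2, ℤ), δ ∈ G' → (N : ℤ) ∣ δ 1 0 → δ ∈ K')
    {I I' : Type} [Fintype I] [Fintype I'] (hcard : Fintype.card I = Fintype.card I')
    (C : T2fSys₂ (ihfGammaH N H) (ihfGammaH Nm Hm) I)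
    (hC : ∀ i, ∃ g : ihfGammaH Nm Hm, C.rep i = ((g : SL(2, ℤ)) : Matrix (Fin 2) (Fin 2) ℤ))
    (C' : T2fSys₂ K' G' I')
    (hC' : ∀ j, ∃ g : G', C'.rep j = ((g : SL(2, ℤ)) : Matrix (Fin 2) (Fin 2) ℤ))
    (φ : Additive (ihfGammaH N H) →+ A) :
    C'.cor A ((ihtSys hyp).cor A φ) = (ihtSys hypm).cor A (C.cor A φ) := by
  classical
  set S := ihtSys hypm with hS
  -- existence
  have hE : ∀ p : (ZMod r)ˣ × I', ∃ q : I × (ZMod r)ˣ, ∃ κ : ihfGammaH N H,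
      ihtRep hyp p.1 * C'.rep p.2
        = ((κ : SL(2, ℤ)) : Matrix (Fin 2) (Fin 2) ℤ) * (C.rep q.1 * ihtRep hypm q.2) := by
    rintro ⟨u, j⟩
    obtain ⟨g', hg'⟩ := hC' j
    have hI : Nonempty I := by
      have h0 : 0 < Fintype.card I' := Fintype.card_pos_iff.mpr ⟨j⟩
      rw [← hcard] at h0
      exact Fintype.card_pos_iff.mp h0
    obtain ⟨i₀⟩ := hI
    obtain ⟨g₀, hg₀⟩ := hC i₀
    have h2 : ihtRep hypm u * ((g' : SL(2, ℤ)) : Matrix (Fin 2) (Fin 2) ℤ)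
        = ((S.eps g' u : SL(2, ℤ)) : Matrix (Fin 2) (Fin 2) ℤ) * ihtRep hypm (S.sigma g' u) :=
      S.rep_mul g' u
    set gu : ihfGammaH Nm Hm := ⟨_, ihtk_gu_mem hP hyp hypm u⟩ with hgu
    set δ : ihfGammaH Nm Hm := g₀⁻¹ * (gu * S.eps g' u) with hδ
    have h3 : C.rep i₀ * ((δ : SL(2, ℤ)) : Matrix (Fin 2) (Fin 2) ℤ)
        = ((C.eps δ i₀ : SL(2, ℤ)) : Matrix (Fin 2) (Fin 2) ℤ) * C.rep (C.sigma δ i₀) :=
      C.rep_mul δ i₀
    have h4 : C.rep i₀ * ((δ : SL(2, ℤ)) : Matrix (Fin 2) (Fin 2) ℤ)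
        = ((gu : SL(2, ℤ)) : Matrix (Fin 2) (Fin 2) ℤ)
          * ((S.eps g' u : SL(2, ℤ)) : Matrix (Fin 2) (Fin 2) ℤ) := by
      rw [hg₀, hδ, Subgroup.coe_mul, Subgroup.coe_inv, Subgroup.coe_mul,
        Matrix.SpecialLinearGroup.coe_mul, Matrix.SpecialLinearGroup.coe_mul,
        iht_SL_mul_inv_cancel]
    refine ⟨(C.sigma δ i₀, S.sigma g' u), C.eps δ i₀, ?_⟩
    show ihtRep hyp u * C'.rep j = _ * (C.rep (C.sigma δ i₀) * ihtRep hypm (S.sigma g' u))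
    rw [hg', ihtk_rep_eq hP hyp hypm u, Matrix.mul_assoc, h2, ← Matrix.mul_assoc,
      ← Matrix.mul_assoc, ← h3, h4]
  choose e κ he using hE
  -- injectivity
  have hinj : Function.Injective e := by
    rintro ⟨u, j⟩ ⟨u₂, j₂⟩ hee
    have h1 := he (u, j)
    have h2 := he (u₂, j₂)
    rw [← hee] at h2
    simp only [] at h1 h2
    obtain ⟨g', hg'⟩ := hC' j
    obtain ⟨g₂', hg₂'⟩ := hC' j₂
    set X := C.rep (e (u, j)).1 * ihtRep hypm (e (u, j)).2 with hX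
    set κ₁ := κ (u, j) with hκ₁
    set κ₂ := κ (u₂, j₂) with hκ₂
    -- `β_u (g' g₂'⁻¹) = (κ₁ κ₂⁻¹) β_{u₂}`
    have h3 : ihtRep hyp u * (((g' * g₂'⁻¹ : G') : SL(2, ℤ)) : Matrix (Fin 2) (Fin 2) ℤ)
        = (((κ₁ * κ₂⁻¹ : ihfGammaH N H) : SL(2, ℤ)) : Matrix (Fin 2) (Fin 2) ℤ)
          * ihtRep hyp u₂ := by
      have h5 : X = (((κ₂⁻¹ : ihfGammaH N H) : SL(2, ℤ)) : Matrix (Fin 2) (Fin 2) ℤ)
          * (ihtRep hyp u₂ * C'.rep j₂) := by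
        rw [h2, Subgroup.coe_inv, iht_SL_inv_mul_cancel]
      have h6 : ihtRep hyp u * ((g' : SL(2, ℤ)) : Matrix (Fin 2) (Fin 2) ℤ)
          = (((κ₁ * κ₂⁻¹ : ihfGammaH N H) : SL(2, ℤ)) : Matrix (Fin 2) (Fin 2) ℤ)
            * ihtRep hyp u₂ * ((g₂' : SL(2, ℤ)) : Matrix (Fin 2) (Fin 2) ℤ) := by
        rw [← hg', h1, h5, hg₂', Subgroup.coe_mul, Matrix.SpecialLinearGroup.coe_mul]
        simp only [Matrix.mul_assoc]
      rw [Subgroup.coe_mul, Subgroup.coe_inv, Matrix.SpecialLinearGroup.coe_mul,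
        ← Matrix.mul_assoc, h6, Matrix.mul_assoc, ← Matrix.SpecialLinearGroup.coe_mul,
        mul_inv_cancel, Matrix.SpecialLinearGroup.coe_one, Matrix.mul_one]
    have hδK : ((g' * g₂'⁻¹ : G') : SL(2, ℤ)) ∈ K' :=
      hq' _ (g' * g₂'⁻¹ : G').2
        (ihtk_entry hyp _ _ (κ₁ * κ₂⁻¹ : ihfGammaH N H).2.1 u u₂ h3)
    have h4 := ihtg_rep_unique C' (i := j) (j := j₂) (γ := ⟨_, hδK⟩) (by
      rw [hg', hg₂']
      show _ = (((g' * g₂'⁻¹ : G') : SL(2, ℤ)) : Matrix (Fin 2) (Fin 2) ℤ) * _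
      rw [Subgroup.coe_mul, Subgroup.coe_inv, Matrix.SpecialLinearGroup.coe_mul,
        Matrix.mul_assoc, ← Matrix.SpecialLinearGroup.coe_mul, inv_mul_cancel,
        Matrix.SpecialLinearGroup.coe_one, Matrix.mul_one])
    obtain ⟨hj, hδ1⟩ := h4
    have hδ1' : ((g' * g₂'⁻¹ : G') : SL(2, ℤ)) = 1 := by
      have := congrArg (fun x : K' => (x : SL(2, ℤ))) hδ1
      exact this
    rw [hδ1', Matrix.SpecialLinearGroup.coe_one, Matrix.mul_one] at h3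
    have h5 := ihtg_rep_unique (ihtSys hyp) (i := u) (j := u₂) (γ := κ₁ * κ₂⁻¹) h3
    rw [h5.1, hj]
  -- the comparison
  have hf : IhtLoc (A := A) (fun c => C'.cor A ((ihtSys hyp).cor A c))
      (fun p : (ZMod r)ˣ × I' => ihtRep hyp p.1 * C'.rep p.2) :=
    IhtLoc.comp (ihtSys_loc hyp A) (IhtLoc.of_sys₂ C' iht_Nr_ne_zero hyp.cong)
  have hf' : IhtLoc (A := A) (fun c => (ihtSys hypm).cor A (C.cor A c))
      (fun p : I × (ZMod r)ˣ => C.rep p.1 * ihtRep hypm p.2) :=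
    IhtLoc.comp (IhtLoc.of_sys₂ C (NeZero.ne N) iht_Gamma_le_GammaH) (ihtSys_loc hypm A)
  refine IhtLoc.ext_of_injective (fun p => ?_) hf hf' e hinj ?_ (fun p => ?_) φ
  · rw [Matrix.det_mul]
    exact mul_ne_zero (ihtRep_det_ne_zero hyp p.1) (C'.det_ne_zero _)
  · rw [Fintype.card_prod, Fintype.card_prod, hcard, Nat.mul_comm]
  · exact ⟨κ p, 1, 1, one_ne_zero, by rw [one_smul, one_smul]; exact he p⟩

/-- **the one-prime twist commutes with the transfer**, on parabolic classes -/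
theorem ihtk_cor_tw (R : Type*) [CommRing R] [Module R A] [NoZeroSMulDivisors ℕ A]
    (hq' : ∀ δ : SL(2, ℤ), δ ∈ G' → (N : ℤ) ∣ δ 1 0 → δ ∈ K')
    {I I' : Type} [Fintype I] [Fintype I'] (hcard : Fintype.card I = Fintype.card I')
    (C : T2fSys₂ (ihfGammaH N H) (ihfGammaH Nm Hm) I)
    (hC : ∀ i, ∃ g : ihfGammaH Nm Hm, C.rep i = ((g : SL(2, ℤ)) : Matrix (Fin 2) (Fin 2) ℤ))
    (C' : T2fSys₂ K' G' I')
    (hC' : ∀ j, ∃ g : G', C'.rep j = ((g : SL(2, ℤ)) : Matrix (Fin 2) (Fin 2) ℤ))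
    (c : ↥(parabolicHoms R (ihfGammaH N H) A)) :
    C'.corPar R A (ihtTw hyp R A c) = ihtTw hypm R A (C.corPar R A c) :=
  Subtype.ext (ihtk_cor_tw_hom hP hyp hypm A hq' hcard C hC C' hC'
    (c : Additive (ihfGammaH N H) →+ A))

end L1

end Fermat.Agent.Ihara
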