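/-
IHARA track, package (I-b) [TW-DEG] (helper5), part 3: **a transversal of `Γ_H(N)` in `Γ_{Hm}(Nm)`**
(`N = Nm q₀`) indexed by `Option (Fin q₀)`: representatives `1` and `d · γ_b`, `γ_b` the representatives
`t2fRepC Nm q₀` of `Γ₀(Nm q₀) \ Γ₀(Nm)` and `d ∈ Γ₀(N)` with lower right entry `≡ q₀⁻¹ mod Nm`.
-/
import Mathlib
import Fermat.Agent.Lib.Ihara.Tk.Pair
import Fermat.Agent.Lib.T2.F.ResCor

set_option autoImplicit false
set_option linter.unusedSectionVars false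
set_option linter.unusedVariables false
set_option linter.style.haveILetI false

namespace Fermat.Agent.Ihara

open Matrix MatrixGroups CongruenceSubgroup ModularCurve ModularCurve.Period
open Fermat.Agent.DS Fermat.Agent.T1 Fermat.Agent.T1G Fermat.Agent.T2

theorem ihtk_SL_ext {a b : SL(2, ℤ)}
    (h : (a : Matrix (Fin 2) (Fin 2) ℤ) = (b : Matrix (Fin 2) (Fin 2) ℤ)) : a = b :=
  Subtype.ext h

/-- **a transversal system of `Γ_H(N)` in `Γ_{Hm}(Nm)` indexed by `Option (Fin q₀)` exists** -/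
theorem ihtk_exists_C {N : ℕ} [NeZero N] {H : Subgroup (ZMod N)ˣ} {Nm : ℕ} [NeZero Nm]
    {Hm : Subgroup (ZMod Nm)ˣ} {q₀ : ℕ} (hP : IhtkPair N H Nm Hm q₀) :
    ∃ C : T2fSys₂ (ihfGammaH N H) (ihfGammaH Nm Hm) (Option (Fin q₀)),
      ∀ i, ∃ g : ihfGammaH Nm Hm, C.rep i = ((g : SL(2, ℤ)) : Matrix (Fin 2) (Fin 2) ℤ) := by
  have hmd : ∀ δ : SL(2, ℤ), δ ∈ ihfGammaH Nm Hm → δ ∈ Gamma0 N → δ ∈ ihfGammaH N H :=
    fun δ h1 h2 => hP.mem_of_dvd h1 ((tdm_mem_Gamma0_iff δ).mp h2)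
  obtain ⟨hq, rfl, hnd, -⟩ := hP
  haveI : Fact q₀.Prime := ⟨hq⟩
  have hdvd : Nm ∣ Nm * q₀ := Dvd.intro q₀ rfl
  have hcop : Nat.Coprime q₀ Nm := (Nat.Prime.coprime_iff_not_dvd hq).mpr hnd
  obtain ⟨x₀, hx₀⟩ := ZMod.unitsMap_surjective hdvd (ZMod.unitOfCoprime q₀ hcop)⁻¹
  set d := dshGammaU (Nm * q₀) x₀ with hd
  have hd0 : d ∈ Gamma0 (Nm * q₀) := dshGammaU_mem _ _
  have hdm : d ∈ Gamma0 Nm := ihtk_Gamma0_le hdvd hd0
  have hdD : dshD Nm d = (((ZMod.unitOfCoprime q₀ hcop)⁻¹ : (ZMod Nm)ˣ) : ZMod Nm) := by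
    rw [← iht_dshD_cast hdvd, dshD_dshGammaU, ← hx₀, ZMod.unitsMap_val]
  -- the representatives
  set ρ : Option (Fin q₀) → SL(2, ℤ) := fun i =>
    match i with
    | none => 1
    | some b => d * ((t2fRepC Nm q₀ hnd (some b) : Gamma0 Nm) : SL(2, ℤ)) with hρ
  have hρn : ρ none = 1 := rfl
  have hρs : ∀ b, ρ (some b) = d * ((t2fRepC Nm q₀ hnd (some b) : Gamma0 Nm) : SL(2, ℤ)) :=
    fun b => rfl
  have hρG : ∀ i, ρ i ∈ ihfGammaH Nm Hm := by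
    rintro (_ | b)
    · rw [hρn]; exact one_mem _
    · rw [hρs]
      apply ihfGamma1_le_GammaH
      rw [dsh_mem_Gamma1_iff]
      refine ⟨mul_mem hdm (t2fRepC Nm q₀ hnd (some b)).2, ?_⟩
      rw [dshD_mul hdm, hdD]
      have h1 : dshD Nm ((t2fRepC Nm q₀ hnd (some b) : Gamma0 Nm) : SL(2, ℤ))
          = ((ZMod.unitOfCoprime q₀ hcop : (ZMod Nm)ˣ) : ZMod Nm) := by
        show (((t2fGamMat Nm q₀ (t2wA Nm q₀) (t2wC Nm q₀) ((b : ℕ) : ℤ)) 1 1 : ℤ) : ZMod Nm) = _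
        simp [t2fGamMat]
      rw [h1, ← Units.val_mul, inv_mul_cancel, Units.val_one]
  -- exhaustive
  have hex : ∀ g : SL(2, ℤ), g ∈ ihfGammaH Nm Hm →
      ∃ i, ∃ κ : ihfGammaH (Nm * q₀) H, g = (κ : SL(2, ℤ)) * ρ i := by
    intro g hg
    obtain ⟨j, ε, hε⟩ := t2f5_exists_repC Nm q₀ hnd ⟨g, hg.1⟩
    have hε' : g = (ε : SL(2, ℤ)) * ((t2fRepC Nm q₀ hnd j : Gamma0 Nm) : SL(2, ℤ)) := hε
    rcases j with _ | b
    · have h1 : g = (ε : SL(2, ℤ)) := by rw [hε', t2fRepC_none]; simp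
      refine ⟨none, ⟨g, hmd g hg (h1 ▸ ε.2)⟩, ?_⟩
      rw [hρn, mul_one]
    · have h1 : (ε : SL(2, ℤ)) * d⁻¹ = g * (ρ (some b))⁻¹ := by
        rw [hρs, hε', _root_.mul_inv_rev, mul_assoc, mul_inv_cancel_left]
      refine ⟨some b, ⟨(ε : SL(2, ℤ)) * d⁻¹, hmd _ ?_ (mul_mem ε.2 (inv_mem hd0))⟩, ?_⟩
      · rw [h1]
        exact mul_mem hg (inv_mem (hρG (some b)))
      · show g = (ε : SL(2, ℤ)) * d⁻¹ * ρ (some b)
        rw [hρs, mul_assoc, inv_mul_cancel_left]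
        exact hε'
  -- inequivalent
  have hineq : ∀ (i j : Option (Fin q₀)) (κ : ihfGammaH (Nm * q₀) H),
      ((κ : SL(2, ℤ)) : Matrix (Fin 2) (Fin 2) ℤ) * (ρ i : Matrix (Fin 2) (Fin 2) ℤ)
        = (ρ j : Matrix (Fin 2) (Fin 2) ℤ) → i = j := by
    intro i j κ h
    have h' : (κ : SL(2, ℤ)) * ρ i = ρ j :=
      ihtk_SL_ext (by rw [Matrix.SpecialLinearGroup.coe_mul]; exact h)
    have hκ0 : (κ : SL(2, ℤ)) ∈ Gamma0 (Nm * q₀) := κ.2.1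
    rcases i with _ | b <;> rcases j with _ | b'
    · rfl
    · rw [hρn, hρs, mul_one] at h'
      refine t2f5_repC_inequiv Nm q₀ hnd none (some b')
        ⟨d⁻¹ * (κ : SL(2, ℤ)), mul_mem (inv_mem hd0) hκ0⟩ ?_
      rw [t2fRepC_none]
      show ((d⁻¹ * (κ : SL(2, ℤ)) : SL(2, ℤ)) : Matrix (Fin 2) (Fin 2) ℤ)
          * (((1 : Gamma0 Nm) : SL(2, ℤ)) : Matrix (Fin 2) (Fin 2) ℤ) = _
      rw [h', inv_mul_cancel_left]
      simp
    · rw [hρn, hρs] at h'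
      refine t2f5_repC_inequiv Nm q₀ hnd (some b) none
        ⟨(κ : SL(2, ℤ)) * d, mul_mem hκ0 hd0⟩ ?_
      rw [t2fRepC_none]
      show ((((κ : SL(2, ℤ)) * d : SL(2, ℤ)) : Matrix (Fin 2) (Fin 2) ℤ))
          * (((t2fRepC Nm q₀ hnd (some b) : Gamma0 Nm) : SL(2, ℤ)) : Matrix (Fin 2) (Fin 2) ℤ)
          = (((1 : Gamma0 Nm) : SL(2, ℤ)) : Matrix (Fin 2) (Fin 2) ℤ)
      rw [← Matrix.SpecialLinearGroup.coe_mul, mul_assoc, h']
      simp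
    · rw [hρs, hρs] at h'
      refine congrArg some ?_
      have e : d⁻¹ * (κ : SL(2, ℤ)) * d * ((t2fRepC Nm q₀ hnd (some b) : Gamma0 Nm) : SL(2, ℤ))
          = ((t2fRepC Nm q₀ hnd (some b') : Gamma0 Nm) : SL(2, ℤ)) := by
        rw [mul_assoc, mul_assoc, h', inv_mul_cancel_left]
      have e2 := congrArg (fun z : SL(2, ℤ) => (z : Matrix (Fin 2) (Fin 2) ℤ)) e
      rw [Matrix.SpecialLinearGroup.coe_mul] at e2
      have := t2f5_repC_inequiv Nm q₀ hnd (some b) (some b')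
        ⟨d⁻¹ * (κ : SL(2, ℤ)) * d, mul_mem (mul_mem (inv_mem hd0) hκ0) hd0⟩ e2
      exact Option.some_injective _ this
  refine ⟨T2fSys₂.ofInequiv (fun i => (ρ i : Matrix (Fin 2) (Fin 2) ℤ))
    (fun i => by rw [(ρ i).2]; exact one_pos) hineq (fun δ i => ?_), fun i => ⟨⟨ρ i, hρG i⟩, rfl⟩⟩
  obtain ⟨j, κ, h⟩ := hex (ρ i * (δ : SL(2, ℤ))) (mul_mem (hρG i) δ.2)
  refine ⟨j, κ, ?_⟩
  rw [← Matrix.SpecialLinearGroup.coe_mul, ← Matrix.SpecialLinearGroup.coe_mul, h]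

end Fermat.Agent.Ihara
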