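/-
IHARA track, package (I-b) [TW-DEG] (helper5), part 4: **the composite twist and the degeneracy maps
at a prime `q₀` outside the list** -- the chain.

`ihtk_chain` = helper7's `ihtc_chain` (Tw/Chain.lean) carrying along the pair of levels
`Γ_H(N) ≤ Γ_{Hm}(Nm)` (`N = Nm q₀`) and the fourth conjunct `IhtkGoodK`:
the composite twist maps the kernel of `cor`, `cor ∘ W_{q₀}` at the source into the kernel of
`cor`, `cor ∘ W_{q₀}` at the target `Γ₀(N') → Γ₀(N'm)`.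
One step: `ihtk_cor_tw` (Tk/Step.lean) and helper8's (Tw1d) `iht_W_tw` (Tw/WComm.lean).
-/
import Mathlib
import Fermat.Agent.Lib.Ihara.Tk.Step
import Fermat.Agent.Lib.Ihara.Tk.Trans

set_option autoImplicit false
set_option linter.unusedSectionVars false
set_option linter.unusedVariables false
set_option linter.style.haveILetI false

namespace Fermat.Agent.Ihara

open Matrix MatrixGroups CongruenceSubgroup ModularCurve ModularCurve.Period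
open Fermat.Agent.DS Fermat.Agent.T1 Fermat.Agent.T1G Fermat.Agent.T2

section Good

variable {N : ℕ} [NeZero N] (H : Subgroup (ZMod N)ˣ) {N' : ℕ} [NeZero N']
  (R : Type*) [CommRing R] (A : Type*) [AddCommGroup A] [Module R A]
  {Nm : ℕ} (Hm : Subgroup (ZMod Nm)ˣ) (q₀ N'm : ℕ)

/-- **(Tw-deg)** the composite twist maps the kernel of the two degeneracy maps `cor`, `cor ∘ W_{q₀}`
at the source `Γ_H(N) → Γ_{Hm}(Nm)` into the kernel of the two degeneracy maps at the target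
`Γ₀(N') → Γ₀(N'm)` (`N' = N'm q₀`).  `C`, `C'` are ANY two-group coset systems whose representatives
are elements of the big group (transversals), `W`, `W'` ANY one-element systems with an
Atkin–Lehner matrix `t2wMat _ q₀ _ _` as representative. -/
structure IhtkGoodK
    (Tw : ↥(parabolicHoms R (ihfGammaH N H) A) →ₗ[R] ↥(parabolicHoms R (Gamma0 N') A)) : Prop where
  cor_tw : ∀ {I I' : Type} [Fintype I] [Fintype I'] (hI : Fintype.card I = q₀ + 1)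
    (hI' : Fintype.card I' = q₀ + 1)
    (C : T2fSys₂ (ihfGammaH N H) (ihfGammaH Nm Hm) I)
    (hC : ∀ i, ∃ g : ihfGammaH Nm Hm, C.rep i = ((g : SL(2, ℤ)) : Matrix (Fin 2) (Fin 2) ℤ))
    (C' : T2fSys₂ (Gamma0 N') (Gamma0 N'm) I')
    (hC' : ∀ i, ∃ g : Gamma0 N'm, C'.rep i = ((g : SL(2, ℤ)) : Matrix (Fin 2) (Fin 2) ℤ))
    (c : ↥(parabolicHoms R (ihfGammaH N H) A)),
    C.corPar R A c = 0 → C'.corPar R A (Tw c) = 0
  corW_tw : ∀ {I I' : Type} [Fintype I] [Fintype I'] (hI : Fintype.card I = q₀ + 1)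
    (hI' : Fintype.card I' = q₀ + 1)
    (C : T2fSys₂ (ihfGammaH N H) (ihfGammaH Nm Hm) I)
    (hC : ∀ i, ∃ g : ihfGammaH Nm Hm, C.rep i = ((g : SL(2, ℤ)) : Matrix (Fin 2) (Fin 2) ℤ))
    (C' : T2fSys₂ (Gamma0 N') (Gamma0 N'm) I')
    (hC' : ∀ i, ∃ g : Gamma0 N'm, C'.rep i = ((g : SL(2, ℤ)) : Matrix (Fin 2) (Fin 2) ℤ))
    (W : tdmCosetSys (ihfGammaH N H) Unit) (a b : ℤ) (hab : (q₀ : ℤ) * a - (Nm : ℤ) * b = 1)
    (hW : W.rep () = t2wMat Nm q₀ a b)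
    (W' : tdmCosetSys (Gamma0 N') Unit) (a' b' : ℤ) (hab' : (q₀ : ℤ) * a' - (N'm : ℤ) * b' = 1)
    (hW' : W'.rep () = t2wMat N'm q₀ a' b')
    (ψ : (ZMod N)ˣ →* R) (c : ↥(parabolicHoms R (ihfGammaH N H) A)),
    (∀ x : (ZMod N)ˣ, (ihfSysD N H x).homPar R A c = ψ x • c) →
    C.corPar R A (W.homPar R A c) = 0 → C'.corPar R A (W'.homPar R A (Tw c)) = 0

end Good

section Entry

variable {N : ℕ} {H : Subgroup (ZMod N)ˣ} {Nm : ℕ} {Hm : Subgroup (ZMod Nm)ˣ} {q₀ : ℕ}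

/-- `Nm r ∣ x`, `N ∣ x` ⟹ `N r ∣ x` (`N = Nm q₀`, `r ≠ q₀` prime) -/
theorem IhtkPair.dvd_entry (hP : IhtkPair N H Nm Hm q₀) {r : ℕ} (hr : r.Prime) (hrq : r ≠ q₀)
    {x : ℤ} (h1 : ((Nm * r : ℕ) : ℤ) ∣ x) (h2 : (N : ℤ) ∣ x) : ((N * r : ℕ) : ℤ) ∣ x := by
  have hc1 : Nat.Coprime Nm q₀ :=
    ((Nat.Prime.coprime_iff_not_dvd hP.prime).mpr hP.ndvd).symm
  have hc2 : Nat.Coprime r q₀ := (Nat.coprime_primes hr hP.prime).mpr hrq
  have hcop : IsCoprime ((Nm * r : ℕ) : ℤ) (q₀ : ℤ) :=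
    Nat.isCoprime_iff_coprime.mpr (Nat.Coprime.mul_left hc1 hc2)
  have h3 : (q₀ : ℤ) ∣ x := (Int.natCast_dvd_natCast.mpr hP.dvd').trans h2
  have h4 := hcop.mul_dvd h1 h3
  have e : ((N * r : ℕ) : ℤ) = ((Nm * r : ℕ) : ℤ) * (q₀ : ℤ) := by
    rw [hP.eq]; push_cast; ring
  rw [e]
  exact h4

/-- `q₀` as a unit modulo a prime `r ≠ q₀` -/
theorem IhtkPair.exists_unit (hP : IhtkPair N H Nm Hm q₀) {r : ℕ} (hr : r.Prime) (hrq : r ≠ q₀) :
    ∃ Qb : (ZMod r)ˣ, (Qb : ZMod r) = (q₀ : ZMod r) :=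
  ⟨ZMod.unitOfCoprime q₀ ((Nat.coprime_primes hP.prime hr).mpr (Ne.symm hrq)),
    ZMod.coe_unitOfCoprime _ _⟩

end Entry

/-! ### The induction -/

section Chain

/-- the chain of twists at the primes of `L`, then at `v`, by induction on `L`, with the pair of levels
`Γ_H(N) ≤ Γ_{Hm}(Nm)` -/
theorem ihtk_chain (R : Type*) [CommRing R] [IsDomain R] [CharZero R] (A : Type*) [AddCommGroup A]
    [Module R A] [NoZeroSMulDivisors R A] (k : ℕ → ℕ) (v q₀ : ℕ) (L : List ℕ) :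
    ∀ (N : ℕ) [NeZero N] (H : Subgroup (ZMod N)ˣ) (hyp : IhtcHyp N H (L ++ [v]) k)
      (N' : ℕ) [NeZero N'] (hN' : N' = N * (L ++ [v]).prod)
      (Nm : ℕ) [NeZero Nm] (Hm : Subgroup (ZMod Nm)ˣ) (hP : IhtkPair N H Nm Hm q₀)
      (hq₀ : q₀ ∉ L ++ [v]) (N'm : ℕ) [NeZero N'm] (hN'm : N'm = Nm * (L ++ [v]).prod),
      ∃ Tw : ↥(parabolicHoms R (ihfGammaH N H) A) →ₗ[R] ↥(parabolicHoms R (Gamma0 N') A),
        IhtcGood H R A (ihtcZ N (L ++ [v]) k) Tw ∧ IhtcGoodAt H R A v (ihtcY N k v) Tw ∧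
          IhtcGoodU H R A (L ++ [v]) (ihtcZ N (L ++ [v]) k) Tw ∧
            IhtkGoodK H R A Hm q₀ N'm Tw := by
  haveI : NoZeroSMulDivisors ℕ A := ⟨fun {n a} h => by
    rw [← Nat.cast_smul_eq_nsmul R] at h
    rcases smul_eq_zero.mp h with h | h
    · left; exact_mod_cast h
    · right; exact h⟩
  have hcardO : Fintype.card (Option (Fin q₀)) = q₀ + 1 := by
    rw [Fintype.card_option, Fintype.card_fin]
  induction L with
  | nil =>
    intro N _ H hyp N' _ hN' Nm _ Hm hP hq₀ N'm _ hN'm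
    have hvmem : v ∈ [] ++ [v] := by simp
    haveI : Fact v.Prime := ⟨hyp.prime v hvmem⟩
    have hvN := hyp.dvd v hvmem
    have hv2 := hyp.not_sq v hvmem
    have hvq : v ≠ q₀ := fun h => hq₀ (h ▸ hvmem)
    have hypm := hP.hypm hyp hq₀
    have hvNm := hypm.dvd v hvmem
    have hv2m := hypm.not_sq v hvmem
    have hN'' : N' = N * v := by simpa using hN'
    have hN''m : N'm = Nm * v := by simpa using hN'm
    subst hN''
    subst hN''m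
    have hyp₀ : IhtHyp N v H (k v) (Gamma0 (N * v)) :=
      iht_hyp_Gamma0 hvN hv2 H (k v)
        (fun u => by
          have := hyp.sqrt v hvmem u
          rwa [ihtcIota_eq N v hvN hv2] at this)
        (fun x hx => hyp.supp x fun s hs h => by
          have hsv : s = v := by simpa using hs
          subst hsv
          exact hx)
    have hypm₀ : IhtHyp Nm v Hm (k v) (Gamma0 (Nm * v)) :=
      iht_hyp_Gamma0 hvNm hv2m Hm (k v)
        (fun u => by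
          have := hypm.sqrt v hvmem u
          rwa [ihtcIota_eq Nm v hvNm hv2m] at this)
        (fun x hx => hypm.supp x fun s hs h => by
          have hsv : s = v := by simpa using hs
          subst hsv
          exact hx)
    have hY : ∀ u : (ZMod v)ˣ, ihtcY N k v u = ihtY hyp₀ u := fun u => by
      rw [ihtcY_apply, ihtcIota_eq N v hvN hv2, ihtY_apply]
    have hz : ∀ {ℓ : ℕ} (hℓ : ℓ.Prime) (hℓv : ¬ ℓ ∣ v),
        ihtcZ N ([] ++ [v]) k ℓ = (ihtY hyp₀ (dshUnit v hℓ hℓv))⁻¹ := fun {ℓ} hℓ hℓv => by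
      rw [ihtcZ, List.nil_append, List.map_singleton, List.prod_singleton, hY,
        ihtcUnit_eq v hℓ hℓv]
    have hq' : ∀ δ : SL(2, ℤ), δ ∈ Gamma0 (Nm * v) → (N : ℤ) ∣ δ 1 0 → δ ∈ Gamma0 (N * v) :=
      fun δ hδ hN => (tdm_mem_Gamma0_iff δ).mpr
        (hP.dvd_entry (Fact.out : v.Prime) hvq ((tdm_mem_Gamma0_iff δ).mp hδ) hN)
    refine ⟨ihtTw hyp₀ R A, ⟨?_, ?_⟩, ⟨?_, ?_⟩, ⟨?_⟩, ⟨?_, ?_⟩⟩
    · intro ℓ hℓ hℓN' hℓN c
      have hℓv : ¬ ℓ ∣ v := fun h => hℓN (h.trans hvN)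
      rw [ihtc_T_base hyp₀ R A hℓ hℓN hℓN' hℓv c, hz hℓ hℓv]
    · intro ψ c hc h0
      exact iht_tw_injective hyp₀ R A ψ c hc h0
    · intro U' hU' ψ c hc hψ
      obtain ⟨u, hu⟩ := hψ
      exact iht_U_tw hyp₀ R A U' hU' ψ c hc ⟨u, by rwa [← hY]⟩
    · intro U' hU' W' M₁ hM₁ a b hab hW' ψ c hc hψ
      obtain ⟨u, hu⟩ := hψ
      have hM₁' : N = M₁ * v := Nat.eq_of_mul_eq_mul_right (Fact.out : v.Prime).pos hM₁
      exact iht_UW_tw hyp₀ R A U' hU' W' M₁ hM₁' a b hab hW' ψ c hc ⟨u, by rwa [← hY]⟩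
    · intro q hq hqN hqRl U' hU' c
      have hqv : ¬ q ∣ v := fun h =>
        hqRl (by rw [(Nat.prime_dvd_prime_iff_eq hq (Fact.out : v.Prime)).mp h]; exact hvmem)
      rw [iht_Uq_tw hyp₀ R A hq hqN hqv U' hU' c, hz hq hqv]
    · intro I I' _ _ hI hI' C hC C' hC' c h
      rw [ihtk_cor_tw hP hyp₀ hypm₀ A R hq' (hI.trans hI'.symm) C hC C' hC' c, h, map_zero]
    · intro I I' _ _ hI hI' C hC C' hC' W a b hab hW W' a' b' hab' hW' ψ c hc h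
      obtain ⟨Qb, hQb⟩ := hP.exists_unit (Fact.out : v.Prime) hvq
      have hM₁' : N * v = Nm * v * q₀ := by rw [hP.eq]; ring
      rw [iht_W_tw hyp₀ A R Nm (Nm * v) hP.eq hM₁' Qb hQb a b hab a' b' hab' W hW W' hW' c, hc,
        map_smul, map_smul, map_smul,
        ihtk_cor_tw hP hyp₀ hypm₀ A R hq' (hI.trans hI'.symm) C hC C' hC' _, h, map_zero,
        smul_zero]
  | cons r L ih =>
    intro N _ H hyp N' _ hN' Nm _ Hm hP hq₀ N'm _ hN'm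
    rw [List.cons_append] at hyp hN' hq₀ hN'm
    have hrmem : r ∈ r :: (L ++ [v]) := List.mem_cons_self
    haveI hr : Fact r.Prime := ⟨hyp.prime r hrmem⟩
    have hrN := hyp.dvd r hrmem
    have hr2 := hyp.not_sq r hrmem
    have hrq : r ≠ q₀ := fun h => hq₀ (h ▸ hrmem)
    have hypm := hP.hypm hyp hq₀
    have hrNm := hypm.dvd r hrmem
    have hr2m := hypm.not_sq r hrmem
    haveI : NeZero (N * r) := ⟨Nat.mul_ne_zero (NeZero.ne N) hr.out.ne_zero⟩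
    haveI : NeZero (Nm * r) := ⟨Nat.mul_ne_zero (NeZero.ne Nm) hr.out.ne_zero⟩
    have hN'₂ : N' = N * r * (L ++ [v]).prod := by rw [hN', List.prod_cons, Nat.mul_assoc]
    have hN'm₂ : N'm = Nm * r * (L ++ [v]).prod := by rw [hN'm, List.prod_cons, Nat.mul_assoc]
    have hP₁ := hP.step hrq hrN hr2 hrNm hr2m
    have hq₀L : q₀ ∉ L ++ [v] := fun h => hq₀ (List.mem_cons_of_mem _ h)
    obtain ⟨Tw₂, hG, hGA, hGU, hGK⟩ := ih (N * r) (ihtcH₁ N r hrN hr2 H) (hyp.tail hrN hr2) N' hN'₂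
      (Nm * r) (ihtcH₁ Nm r hrNm hr2m Hm) hP₁ hq₀L N'm hN'm₂
    have hyp₁ : IhtHyp N r H (k r) (ihfGammaH (N * r) (ihtcH₁ N r hrN hr2 H)) :=
      ihtc_hyp₁ N r hrN hr2 H (k r) (hyp.sqrt' hrN hr2)
    have hypm₁ : IhtHyp Nm r Hm (k r) (ihfGammaH (Nm * r) (ihtcH₁ Nm r hrNm hr2m Hm)) :=
      ihtc_hyp₁ Nm r hrNm hr2m Hm (k r) (hypm.sqrt' hrNm hr2m)
    have hvL : v ∈ L ++ [v] := by simp
    have hψ' : ∀ (ψ : (ZMod N)ˣ →* R) (u : (ZMod v)ˣ),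
        (ψ.comp (ihtcDown N r hyp₁.dvd hyp₁.not_sq (2 * k r))) (ihtcY (N * r) k v u)
          = ψ (ihtcY N k v u) := fun ψ u => by
      rw [MonoidHom.comp_apply, hyp.down_Y hrN hr2 _ hvL]
    have hq' : ∀ δ : SL(2, ℤ), δ ∈ ihfGammaH (Nm * r) (ihtcH₁ Nm r hrNm hr2m Hm) →
        (N : ℤ) ∣ δ 1 0 → δ ∈ ihfGammaH (N * r) (ihtcH₁ N r hrN hr2 H) :=
      fun δ hδ hN => hP₁.mem_of_dvd hδ
        (hP.dvd_entry hr.out hrq ((tdm_mem_Gamma0_iff δ).mp hδ.1) hN)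
    obtain ⟨C₁, hC₁⟩ := ihtk_exists_C hP₁
    refine ⟨Tw₂ ∘ₗ ihtTw hyp₁ R A, ⟨?_, ?_⟩, ⟨?_, ?_⟩, ⟨?_⟩, ⟨?_, ?_⟩⟩
    · intro ℓ hℓ hℓN' hℓN c
      have hℓNr : ¬ ℓ ∣ N * r := fun h => hℓN' (h.trans ⟨_, hN'₂⟩)
      have hℓr : ¬ ℓ ∣ r := fun h => hℓN (h.trans hrN)
      rw [List.cons_append, LinearMap.comp_apply, LinearMap.comp_apply,
        ihtc_T_step hyp₁ R A Tw₂ hℓ hℓN hℓNr hℓr (tdmSysT N' ℓ hℓ hℓN')
          (ihtcZ (N * r) (L ++ [v]) k ℓ) (fun c' => hG.T_tw ℓ hℓ hℓN' hℓNr c') c,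
        hyp.Z_cons hrN hr2 (2 * k r) hℓ hℓr, ihtY_apply]
    · intro ψ c hc h0
      rw [LinearMap.comp_apply] at h0
      have h1 : ihtTw hyp₁ R A c = 0 :=
        hG.inj (ψ.comp (ihtcDown N r hyp₁.dvd hyp₁.not_sq (2 * k r))) _
          (ihtc_eigen_tw hyp₁ R A ψ c hc) h0
      exact iht_tw_injective hyp₁ R A ψ c hc h1
    · intro U' hU' ψ c hc hψ
      obtain ⟨u, hu⟩ := hψ
      rw [LinearMap.comp_apply]
      exact hGA.U_tw U' hU' (ψ.comp (ihtcDown N r hyp₁.dvd hyp₁.not_sq (2 * k r))) _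
        (ihtc_eigen_tw hyp₁ R A ψ c hc) ⟨u, by rwa [hψ']⟩
    · intro U' hU' W' M₁ hM₁ a b hab hW' ψ c hc hψ
      obtain ⟨u, hu⟩ := hψ
      rw [LinearMap.comp_apply]
      exact hGA.UW_tw U' hU' W' M₁ hM₁ a b hab hW'
        (ψ.comp (ihtcDown N r hyp₁.dvd hyp₁.not_sq (2 * k r))) _
        (ihtc_eigen_tw hyp₁ R A ψ c hc) ⟨u, by rwa [hψ']⟩
    · intro q hq hqN hqRl U' hU' c
      rw [List.cons_append] at hqRl
      have hqr : ¬ q ∣ r := fun h =>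
        hqRl (by rw [(Nat.prime_dvd_prime_iff_eq hq hr.out).mp h]; exact hrmem)
      have hqL : q ∉ L ++ [v] := fun h => hqRl (List.mem_cons_of_mem _ h)
      have hqNr : q ∣ N * r := ihtc_dvd_mul N hqN
      rw [List.cons_append, LinearMap.comp_apply, LinearMap.comp_apply,
        ihtc_U_step hyp₁ R A Tw₂ hq hqN hqNr hqr U' (ihtcZ (N * r) (L ++ [v]) k q)
          (fun c' => hGU.U_tw q hq hqNr hqL U' hU' c') c,
        hyp.Z_cons hrN hr2 (2 * k r) hq hqr, ihtY_apply]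
    · intro I I' _ _ hI hI' C hC C' hC' c h
      rw [LinearMap.comp_apply]
      refine hGK.cor_tw hcardO hI' C₁ hC₁ C' hC' _ ?_
      rw [ihtk_cor_tw hP hyp₁ hypm₁ A R hq' (hI.trans hcardO.symm) C hC C₁ hC₁ c, h, map_zero]
    · intro I I' _ _ hI hI' C hC C' hC' W a b hab hW W' a' b' hab' hW' ψ c hc h
      rw [LinearMap.comp_apply]
      haveI : Fact q₀.Prime := ⟨hP.prime⟩
      have hab₁ := t2w_bezout (Nm * r) q₀ hP.prime hP₁.ndvd
      obtain ⟨W₁, hW₁⟩ := ihtk_exists_W hP₁ (t2wA (Nm * r) q₀) (t2wC (Nm * r) q₀) hab₁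
      obtain ⟨Qb, hQb⟩ := hP.exists_unit hr.out hrq
      refine hGK.corW_tw hcardO hI' C₁ hC₁ C' hC' W₁ _ _ hab₁ hW₁ W' a' b' hab' hW'
        (ψ.comp (ihtcDown N r hyp₁.dvd hyp₁.not_sq (2 * k r))) _
        (ihtc_eigen_tw hyp₁ R A ψ c hc) ?_
      rw [iht_W_tw hyp₁ A R Nm (Nm * r) hP.eq hP₁.eq Qb hQb a b hab _ _ hab₁ W hW W₁ hW₁ c, hc,
        map_smul, map_smul, map_smul,
        ihtk_cor_tw hP hyp₁ hypm₁ A R hq' (hI.trans hcardO.symm) C hC C₁ hC₁ _, h, map_zero,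
        smul_zero]

end Chain

end Fermat.Agent.Ihara
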