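/-
IHARA track, package (I-b) [TW-DEG] (helper5): **the composite twist commutes with the two degeneracy
maps at a prime `q₀` outside the list** -- main theorems.

* `ihtk_exists` = helper7's `ihtc_exists'` with the fourth conjunct `IhtkGoodK` (the SAME `Tw` for all
  four): the kernel of `cor`, `cor ∘ W_{q₀}` at the source `Γ_H(N) → Γ_{Hm}(Nm)` (`N = Nm q₀`) is mapped
  into the kernel of `cor`, `cor ∘ W_{q₀}` at the target `Γ₀(N') → Γ₀(N'm)`;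
* `ihtk_mem_K`: consumer form, `Tw c ∈ ih4K (ih4Cor N'm q₀ h R A) (ih4W N'm q₀ h R A)` (helper3's
  `q₀`-new part; the hypothesis `hcK` of lead's `ihe_trace_frob_class`);
* `ihtk_exists_C` (Tk/Trans.lean), `ihtk_exists_W` (Tk/Pair.lean): the source-level systems exist.
-/
import Mathlib
import Fermat.Agent.Lib.Ihara.Tk.Chain
import Fermat.Agent.Lib.Ihara.H4.Betti

set_option autoImplicit false
set_option linter.unusedSectionVars false
set_option linter.unusedVariables false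
set_option linter.style.haveILetI false

namespace Fermat.Agent.Ihara

open Matrix MatrixGroups CongruenceSubgroup ModularCurve ModularCurve.Period
open Fermat.Agent.DS Fermat.Agent.T1 Fermat.Agent.T1G Fermat.Agent.T2

/-- **(I-b) [TW-DEG]**: `ihtc_exists'` with the fourth conjunct `IhtkGoodK` -/
theorem ihtk_exists {N : ℕ} [NeZero N] {H : Subgroup (ZMod N)ˣ} {Rl : List ℕ} {k : ℕ → ℕ}
    (hyp : IhtcHyp N H Rl k) {v : ℕ} (hv : v ∈ Rl) {N' : ℕ} [NeZero N'] (hN' : N' = N * Rl.prod)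
    {Nm : ℕ} [NeZero Nm] {Hm : Subgroup (ZMod Nm)ˣ} {q₀ : ℕ} (hP : IhtkPair N H Nm Hm q₀)
    (hq₀ : q₀ ∉ Rl) {N'm : ℕ} [NeZero N'm] (hN'm : N'm = Nm * Rl.prod)
    (R : Type*) [CommRing R] [IsDomain R] [CharZero R] (A : Type*) [AddCommGroup A] [Module R A]
    [NoZeroSMulDivisors R A] :
    ∃ Tw : ↥(parabolicHoms R (ihfGammaH N H) A) →ₗ[R] ↥(parabolicHoms R (Gamma0 N') A),
      IhtcGood H R A (ihtcZ N Rl k) Tw ∧ IhtcGoodAt H R A v (ihtcY N k v) Tw ∧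
        IhtcGoodU H R A Rl (ihtcZ N Rl k) Tw ∧ IhtkGoodK H R A Hm q₀ N'm Tw := by
  have hp : Rl.Perm (Rl.erase v ++ [v]) :=
    (List.perm_cons_erase hv).trans (List.perm_append_singleton v _).symm
  have hN'' : N' = N * (Rl.erase v ++ [v]).prod := by rw [hN', hp.prod_eq]
  have hN''m : N'm = Nm * (Rl.erase v ++ [v]).prod := by rw [hN'm, hp.prod_eq]
  obtain ⟨Tw, hG, hGA, hGU, hGK⟩ := ihtk_chain R A k v q₀ (Rl.erase v) N H (hyp.perm hp) N' hN''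
    Nm Hm hP (fun h => hq₀ (hp.mem_iff.mpr h)) N'm hN''m
  rw [← ihtcZ_perm N k hp] at hG hGU
  exact ⟨Tw, hG, hGA, ⟨fun q hq hqN hqRl U' hU' c =>
    hGU.U_tw q hq hqN (fun h => hqRl (hp.mem_iff.mpr h)) U' hU' c⟩, hGK⟩

/-- **consumer form**: the twisted class lies in helper3's `q₀`-new part `ih4K` at `(N'm, q₀)` -/
theorem ihtk_mem_K {N : ℕ} [NeZero N] {H : Subgroup (ZMod N)ˣ} {Nm : ℕ} {Hm : Subgroup (ZMod Nm)ˣ}
    {q₀ : ℕ} [hq : Fact q₀.Prime] {N'm : ℕ} [NeZero N'm] (h : ¬ q₀ ∣ N'm)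
    (R : Type*) [CommRing R] (A : Type*) [AddCommGroup A] [Module R A]
    {Tw : ↥(parabolicHoms R (ihfGammaH N H) A) →ₗ[R] ↥(parabolicHoms R (Gamma0 (N'm * q₀)) A)}
    (hK : IhtkGoodK H R A Hm q₀ N'm Tw)
    {I : Type} [Fintype I] (hI : Fintype.card I = q₀ + 1)
    (C : T2fSys₂ (ihfGammaH N H) (ihfGammaH Nm Hm) I)
    (hC : ∀ i, ∃ g : ihfGammaH Nm Hm, C.rep i = ((g : SL(2, ℤ)) : Matrix (Fin 2) (Fin 2) ℤ))
    (W : tdmCosetSys (ihfGammaH N H) Unit) (a b : ℤ) (hab : (q₀ : ℤ) * a - (Nm : ℤ) * b = 1)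
    (hW : W.rep () = t2wMat Nm q₀ a b)
    (ψ : (ZMod N)ˣ →* R) (c : ↥(parabolicHoms R (ihfGammaH N H) A))
    (hc : ∀ x : (ZMod N)ˣ, (ihfSysD N H x).homPar R A c = ψ x • c)
    (h1 : C.corPar R A c = 0) (h2 : C.corPar R A (W.homPar R A c) = 0) :
    Tw c ∈ ih4K (ih4Cor N'm q₀ h R A) (ih4W N'm q₀ h R A) := by
  have hcardO : Fintype.card (Option (Fin q₀)) = q₀ + 1 := by
    rw [Fintype.card_option, Fintype.card_fin]
  have hC' : ∀ i, ∃ g : Gamma0 N'm, (t2fSysC N'm q₀ h).rep i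
      = ((g : SL(2, ℤ)) : Matrix (Fin 2) (Fin 2) ℤ) := fun i => ⟨t2fRepC N'm q₀ h i, rfl⟩
  rw [ih4_mem_K]
  refine ⟨hK.cor_tw hI hcardO C hC (t2fSysC N'm q₀ h) hC' c h1, ?_⟩
  exact hK.corW_tw hI hcardO C hC (t2fSysC N'm q₀ h) hC' W a b hab hW (t2fSysW N'm q₀ h)
    (t2wA N'm q₀) (t2wC N'm q₀) (t2w_bezout N'm q₀ hq.out h) rfl ψ c hc h2

end Fermat.Agent.Ihara
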